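import Mathlib
import Fermat.Prelude.Def_EllipticCurve_FrobeniusTrace
import Fermat.Prelude.Def_FLTPrelim_Ramification

/-!
# P-CHEB, phase 1: the Frobenius density theorem (existence form) -- interfaces

Goal (`FrobeniusDensityStatement`): for every finite extension `K ⊆ ℚ̄` of `ℚ`, every
`σ ∈ Gal(ℚ̄/ℚ)` and every finite set `T` of primes there are a prime `ℓ ∉ T`, a place `A` of `ℚ̄`
over `ℓ`, a Frobenius element `τ` at `A` and `j : ℕ` with `τ ^ j = σ` on `K`.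

This is Frobenius' theorem (1896): it only needs that Dedekind zeta functions have a simple pole at
`s = 1` (Mathlib) -- no `L`-functions, no class field theory.  It is exactly what is needed to
propagate "equal characteristic polynomials at Frobenius elements" to all of `Gal(ℚ̄/ℚ)`.

All statements below are `Prop`-valued definitions; the glue is in `Fermat.Agent.H62.Cheb.Glue`.
-/

set_option autoImplicit false

open NumberField Ideal IsDedekindDomain
open scoped Pointwise Classical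

namespace Fermat.Agent.H62.Cheb

/-- a finite extension of `ℚ` inside `ℚ̄` is a number field -/
instance numberField_of_finiteDimensional (K : IntermediateField ℚ (AlgebraicClosure ℚ))
    [FiniteDimensional ℚ K] : NumberField K where
  to_charZero := inferInstance
  to_finiteDimensional := inferInstance

/-- number of prime ideals of `𝓞 F` of absolute norm `p` -/
noncomputable def primeCount (F : Type) [Field F] [NumberField F] (p : ℕ) : ℕ :=
  Nat.card {v : HeightOneSpectrum (𝓞 F) // absNorm v.asIdeal = p}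

/-- the degree-one prime zeta sum `∑_p #{𝔭 : N𝔭 = p} p^(-s)` -/
noncomputable def degOneSum (F : Type) [Field F] [NumberField F] (s : ℝ) : ℝ :=
  ∑' p : Nat.Primes, (primeCount F p : ℝ) * ((p : ℕ) : ℝ) ^ (-s)

/-- **CHEB-A** (analytic): `degOneSum F s = log (1/(s-1)) + O(1)` as `s → 1⁺`, and the defining
series is summable for `s > 1`. -/
def DegOneAsymptoticStatement : Prop :=
  ∀ (F : Type) [Field F] [NumberField F],
    (∀ s : ℝ, 1 < s → Summable fun p : Nat.Primes => (primeCount F p : ℝ) * ((p : ℕ) : ℝ) ^ (-s)) ∧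
    ∃ B : ℝ, ∃ δ : ℝ, 0 < δ ∧ ∀ s : ℝ, 1 < s → s < 1 + δ →
      |degOneSum F s - Real.log (1 / (s - 1))| ≤ B

/-- number of pairs `(𝔓, g)`, `𝔓` a prime of `𝓞 K` containing `p`, `g` in the decomposition group
`Z(𝔓)` of `𝔓`, such that `Z(𝔓) ≤ D`. -/
noncomputable def pairCount (K : Type) [Field K] [NumberField K] (D : Subgroup (K ≃ₐ[ℚ] K))
    (p : ℕ) : ℕ :=
  Nat.card {x : HeightOneSpectrum (𝓞 K) × (K ≃ₐ[ℚ] K) //
    ((p : ℕ) : 𝓞 K) ∈ x.1.asIdeal ∧ x.2 ∈ MulAction.stabilizer (K ≃ₐ[ℚ] K) x.1.asIdeal ∧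
      MulAction.stabilizer (K ≃ₐ[ℚ] K) x.1.asIdeal ≤ D}

/-- number of pairs `(𝔓, g)`, `𝔓` a prime of `𝓞 K` containing `p`, `g` in the decomposition group
`Z(𝔓)` of `𝔓`, such that `Z(𝔓) = D`. -/
noncomputable def exactPairCount (K : Type) [Field K] [NumberField K] (D : Subgroup (K ≃ₐ[ℚ] K))
    (p : ℕ) : ℕ :=
  Nat.card {x : HeightOneSpectrum (𝓞 K) × (K ≃ₐ[ℚ] K) //
    ((p : ℕ) : 𝓞 K) ∈ x.1.asIdeal ∧ x.2 ∈ MulAction.stabilizer (K ≃ₐ[ℚ] K) x.1.asIdeal ∧
      MulAction.stabilizer (K ≃ₐ[ℚ] K) x.1.asIdeal = D}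

/-- **CHEB-B** (algebraic counting): for `K/ℚ` Galois, `D ≤ Gal(K/ℚ)`, `F = K^D` and `p` unramified
in `K`: `|D| · #{𝔮 ⊂ 𝓞 F : N𝔮 = p} = #{(𝔓, g) : 𝔓 ∣ p, g ∈ Z(𝔓), Z(𝔓) ≤ D}`. -/
def CountingStatement : Prop :=
  ∀ (K : Type) [Field K] [NumberField K] [IsGalois ℚ K] (D : Subgroup (K ≃ₐ[ℚ] K)) (p : ℕ),
    p.Prime → ¬ ((p : ℤ) ∣ NumberField.discr K) →
      Nat.card D * primeCount (IntermediateField.fixedField D) p = pairCount K D p

/-- **CHEB-C** (group theory): Möbius inversion over the subgroups of a finite cyclic group. -/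
def GroupMoebiusStatement : Prop :=
  ∀ (G : Type) [Group G] [Finite G] (σ : G) (Z : Subgroup G),
    ∑ d ∈ (orderOf σ).divisors, (ArithmeticFunction.moebius d : ℤ) *
        (if Z ≤ Subgroup.zpowers (σ ^ d) then 1 else 0) =
      if Z = Subgroup.zpowers σ then 1 else 0

/-- **CHEB-D** (number-field form of Frobenius' theorem): for `K/ℚ` finite Galois, `σ ∈ Gal(K/ℚ)`
and a finite set `T` of primes there are a prime `p ∉ T`, unramified in `K`, and a prime `𝔓 ∣ p` of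
`𝓞 K` whose decomposition group is exactly `⟨σ⟩`. -/
def FrobeniusNFStatement : Prop :=
  ∀ (K : Type) [Field K] [NumberField K] [IsGalois ℚ K] (σ : K ≃ₐ[ℚ] K) (T : Finset ℕ),
    ∃ p : ℕ, p.Prime ∧ p ∉ T ∧ ¬ ((p : ℤ) ∣ NumberField.discr K) ∧
      ∃ v : HeightOneSpectrum (𝓞 K), ((p : ℕ) : 𝓞 K) ∈ v.asIdeal ∧
        MulAction.stabilizer (K ≃ₐ[ℚ] K) v.asIdeal = Subgroup.zpowers σ

/-- **CHEB-E** (bridge to the prelude language): a prime `𝔓 ∣ p` of a finite Galois `K ⊆ ℚ̄`,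
`p` unramified in `K`, lies under a place `A` of `ℚ̄` over `p`; every Frobenius element `τ` at `A`
restricts to a generator of the decomposition group of `𝔓`, and the inertia group at `A` acts
trivially on `K`. -/
def BridgeStatement : Prop :=
  ∀ (K : IntermediateField ℚ (AlgebraicClosure ℚ)) [FiniteDimensional ℚ K] [IsGalois ℚ K]
    (p : ℕ), p.Prime → ¬ ((p : ℤ) ∣ NumberField.discr K) →
    ∀ v : HeightOneSpectrum (𝓞 K), ((p : ℕ) : 𝓞 K) ∈ v.asIdeal →
      ∃ A : ValuationSubring (AlgebraicClosure ℚ), A.LiesOverPrime p ∧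
        (∀ x : 𝓞 K, x ∈ v.asIdeal ↔ ((x : K) : AlgebraicClosure ℚ) ∈ A.nonunits) ∧
        (∀ ι ∈ A.inertiaSubgroupIn ℚ, ∀ x ∈ K, ι x = x) ∧
        ∀ τ : AlgebraicClosure ℚ ≃ₐ[ℚ] AlgebraicClosure ℚ, A.IsFrobeniusAt τ p →
          Subgroup.zpowers (AlgEquiv.restrictNormalHom K τ) =
            MulAction.stabilizer (K ≃ₐ[ℚ] K) v.asIdeal

/-- **CHEB-F** (final statement of phase 1, prelude language): Frobenius' density theorem,
existence form. -/
def FrobeniusDensityStatement : Prop :=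
  ∀ (K : IntermediateField ℚ (AlgebraicClosure ℚ)) [FiniteDimensional ℚ K]
    (σ : AlgebraicClosure ℚ ≃ₐ[ℚ] AlgebraicClosure ℚ) (T : Finset ℕ),
    ∃ ℓ : ℕ, ℓ.Prime ∧ ℓ ∉ T ∧ ∃ A : ValuationSubring (AlgebraicClosure ℚ),
      A.LiesOverPrime ℓ ∧ (∀ ι ∈ A.inertiaSubgroupIn ℚ, ∀ x ∈ K, ι x = x) ∧
      ∃ τ : AlgebraicClosure ℚ ≃ₐ[ℚ] AlgebraicClosure ℚ, A.IsFrobeniusAt τ ℓ ∧
        ∃ j : ℕ, ∀ x ∈ K, (τ ^ j) x = σ x

/-- The full Chebotarev theorem (existence form), target of phase 2. -/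
def ChebotarevStatement : Prop :=
  ∀ (K : IntermediateField ℚ (AlgebraicClosure ℚ)) [FiniteDimensional ℚ K]
    (σ : AlgebraicClosure ℚ ≃ₐ[ℚ] AlgebraicClosure ℚ) (T : Finset ℕ),
    ∃ ℓ : ℕ, ℓ.Prime ∧ ℓ ∉ T ∧ ∃ A : ValuationSubring (AlgebraicClosure ℚ),
      A.LiesOverPrime ℓ ∧ (∀ ι ∈ A.inertiaSubgroupIn ℚ, ∀ x ∈ K, ι x = x) ∧
      ∃ τ : AlgebraicClosure ℚ ≃ₐ[ℚ] AlgebraicClosure ℚ, A.IsFrobeniusAt τ ℓ ∧
        ∀ x ∈ K, τ x = σ x

end Fermat.Agent.H62.Cheb
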