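import Fermat.Agent.H62.Cheb.Interfaces
import Fermat.Agent.H62.ClaimZ
import Fermat.Agent.H15.S14Neg

/-!
# P-CHEB / CHEB-A: the degree-one prime sum of a number field is `log (1/(s-1)) + O(1)`
-/

set_option autoImplicit false

open NumberField Ideal IsDedekindDomain Filter Topology
open scoped Pointwise Classical

namespace Fermat.Agent.H62.Cheb

open Fermat.Agent.H62

variable (F : Type) [Field F] [NumberField F]

/-- the set of primes of `𝓞 F` of prime norm -/
def degOneSet : Set (HeightOneSpectrum (𝓞 F)) := {v | (absNorm v.asIdeal).Prime}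

/-- the fibre equivalence: primes of prime norm, sorted by their norm -/
noncomputable def degOneEquiv :
    (Σ p : Nat.Primes, {v : HeightOneSpectrum (𝓞 F) // absNorm v.asIdeal = (p : ℕ)}) ≃
      degOneSet F where
  toFun x := ⟨x.2.1, by
    change (absNorm x.2.1.asIdeal).Prime
    rw [x.2.2]; exact x.1.2⟩
  invFun v := ⟨⟨absNorm v.1.asIdeal, v.2⟩, ⟨v.1, rfl⟩⟩
  left_inv := by
    rintro ⟨⟨p, hp⟩, ⟨v, hv⟩⟩
    simp only at hv
    subst hv
    rfl
  right_inv := by
    rintro ⟨v, hv⟩
    rfl

instance finite_fibre (p : ℕ) :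
    Finite {v : HeightOneSpectrum (𝓞 F) // absNorm v.asIdeal = p} := by
  have h := (Ideal.finite_setOfPred_absNorm_eq (S := 𝓞 F) p).to_subtype
  exact Finite.of_injective
    (fun v : {v : HeightOneSpectrum (𝓞 F) // absNorm v.asIdeal = p} =>
      (⟨v.1.asIdeal, v.2⟩ : {I : Ideal (𝓞 F) | absNorm I = p}))
    (fun v w hvw => Subtype.ext (HeightOneSpectrum.ext (congrArg Subtype.val hvw)))

/-- the sum over the primes of prime norm, fibred over the rational primes -/
theorem hasSum_degOne {s : ℝ} (hs : 1 < s) :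
    HasSum (fun p : Nat.Primes => (primeCount F p : ℝ) * ((p : ℕ) : ℝ) ^ (-s))
      (∑' v : degOneSet F, primeTerm F s v) := by
  have hsum : Summable (fun v : degOneSet F => primeTerm F s v) :=
    (summable_primeTerm F hs).subtype _
  have h1 : HasSum (fun x : (Σ p : Nat.Primes,
      {v : HeightOneSpectrum (𝓞 F) // absNorm v.asIdeal = (p : ℕ)}) =>
      primeTerm F s (degOneEquiv F x)) (∑' v : degOneSet F, primeTerm F s v) :=
    (degOneEquiv F).hasSum_iff.mpr hsum.hasSum
  refine h1.sigma fun p => ?_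
  have hterm : ∀ v : {v : HeightOneSpectrum (𝓞 F) // absNorm v.asIdeal = (p : ℕ)},
      primeTerm F s (degOneEquiv F ⟨p, v⟩) = ((p : ℕ) : ℝ) ^ (-s) := by
    intro v
    change ((absNorm v.1.asIdeal : ℕ) : ℝ) ^ (-s) = _
    rw [v.2]
  simp only [hterm]
  have : Fintype {v : HeightOneSpectrum (𝓞 F) // absNorm v.asIdeal = (p : ℕ)} :=
    Fintype.ofFinite _
  have h2 := hasSum_fintype
    (fun _ : {v : HeightOneSpectrum (𝓞 F) // absNorm v.asIdeal = (p : ℕ)} => ((p : ℕ) : ℝ) ^ (-s))
  rw [Finset.sum_const, Finset.card_univ, nsmul_eq_mul, ← Nat.card_eq_fintype_card] at h2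
  exact h2

theorem degOneSum_eq {s : ℝ} (hs : 1 < s) :
    degOneSum F s = ∑' v : degOneSet F, primeTerm F s v :=
  (hasSum_degOne F hs).tsum_eq

/-- the primes of non-prime norm -/
theorem compl_degOneSet :
    (degOneSet F)ᶜ = {v : HeightOneSpectrum (𝓞 F) |
      ¬ (absNorm v.asIdeal).Prime ∨ absNorm v.asIdeal = 0} := by
  ext v
  simp only [degOneSet, Set.mem_compl_iff, Set.mem_ofPred_eq]
  constructor
  · intro h; exact Or.inl h
  · rintro (h | h)
    · exact h
    · rw [h]; exact Nat.not_prime_zero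

/-- the constant bounding the contribution of the primes of degree `≥ 2` -/
noncomputable def negConst : ℝ :=
  ∑' v : {v : HeightOneSpectrum (𝓞 F) // ¬ (absNorm v.asIdeal).Prime ∨ absNorm v.asIdeal = 0},
    ((absNorm v.1.asIdeal : ℝ))⁻¹

theorem primeZetaSum_eq_add {s : ℝ} (hs : 1 < s) :
    primeZetaSum F s = degOneSum F s + ∑' v : ((degOneSet F)ᶜ : Set _), primeTerm F s v := by
  rw [degOneSum_eq F hs, primeZetaSum]
  exact ((summable_primeTerm F hs).tsum_subtype_add_tsum_subtype_compl (degOneSet F)).symm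

theorem tsum_compl_nonneg (s : ℝ) :
    0 ≤ ∑' v : ((degOneSet F)ᶜ : Set _), primeTerm F s v :=
  tsum_nonneg fun v => (primeTerm_pos F s v).le

theorem tsum_compl_le {s : ℝ} (hs : 1 < s) :
    ∑' v : ((degOneSet F)ᶜ : Set _), primeTerm F s v ≤ negConst F := by
  have hT := Fermat.Agent.H15.summable_inv_absNorm_not_degOne F 0
  have h := tsum_subtype_primeTerm_le F
    {v : HeightOneSpectrum (𝓞 F) | ¬ (absNorm v.asIdeal).Prime ∨ absNorm v.asIdeal = 0} hT hs
  rw [compl_degOneSet]
  exact h

theorem degOneSum_le {s : ℝ} (hs : 1 < s) : degOneSum F s ≤ primeZetaSum F s := by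
  rw [primeZetaSum_eq_add F hs]
  linarith [tsum_compl_nonneg F s]

theorem le_degOneSum {s : ℝ} (hs : 1 < s) : primeZetaSum F s - negConst F ≤ degOneSum F s := by
  rw [primeZetaSum_eq_add F hs]
  linarith [tsum_compl_le F hs]

/-- **CHEB-A**. -/
theorem degOneAsymptotic : DegOneAsymptoticStatement := by
  intro F _ _
  refine ⟨fun s hs => (hasSum_degOne F hs).summable, ?_⟩
  have hres := dedekindZeta_residue_pos F
  set κ := dedekindZeta_residue F with hκ
  have hev := eventually_idealZeta_bounds F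
  rw [eventually_nhdsWithin_iff, Metric.eventually_nhds_iff] at hev
  obtain ⟨δ, hδ, hball⟩ := hev
  refine ⟨|Real.log (2 * κ)| + |Real.log (κ / 2)| + 2 * primeZetaSum F 2 + negConst F, δ, hδ, ?_⟩
  intro s hs1 hs2
  have hdist : dist s 1 < δ := by
    rw [Real.dist_eq, abs_of_pos (by linarith)]
    linarith
  obtain ⟨hlo, hhi⟩ := hball hdist hs1
  have ht : 0 < s - 1 := by linarith
  have hζpos := idealZeta_pos F hs1
  have hL : Real.log (1 / (s - 1)) = - Real.log (s - 1) := by
    rw [one_div, Real.log_inv]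
  have hlogζ : Real.log ((s - 1) * idealZeta F s) = Real.log (s - 1) + Real.log (idealZeta F s) :=
    Real.log_mul ht.ne' hζpos.ne'
  -- upper bound
  have hup1 : primeZetaSum F s ≤ Real.log (idealZeta F s) := by
    have := exp_primeZetaSum_le F hs1
    calc primeZetaSum F s = Real.log (Real.exp (primeZetaSum F s)) := (Real.log_exp _).symm
      _ ≤ Real.log (idealZeta F s) := Real.log_le_log (Real.exp_pos _) this
  have hup2 : Real.log ((s - 1) * idealZeta F s) ≤ Real.log (2 * κ) :=
    Real.log_le_log (mul_pos ht hζpos) hhi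
  -- lower bound
  have hlow1 : Real.log (idealZeta F s) ≤ primeZetaSum F s + 2 * primeZetaSum F 2 := by
    have := idealZeta_le_exp F hs1
    calc Real.log (idealZeta F s) ≤ Real.log (Real.exp (primeZetaSum F s + 2 * primeZetaSum F 2)) :=
          Real.log_le_log hζpos this
      _ = _ := Real.log_exp _
  have hlow2 : Real.log (κ / 2) ≤ Real.log ((s - 1) * idealZeta F s) :=
    Real.log_le_log (by positivity) hlo
  have h1 := degOneSum_le F hs1
  have h2 := le_degOneSum F hs1
  have hn : 0 ≤ negConst F := tsum_nonneg fun v => by positivity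
  have hp2 : 0 ≤ primeZetaSum F 2 := primeZetaSum_nonneg F 2
  rw [abs_le]
  constructor
  · have := neg_abs_le (Real.log (κ / 2))
    have := abs_nonneg (Real.log (2 * κ))
    linarith
  · have := le_abs_self (Real.log (2 * κ))
    have := abs_nonneg (Real.log (κ / 2))
    linarith

end Fermat.Agent.H62.Cheb
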