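import Fermat.Agent.H62.Cheb.Interfaces
import Fermat.Prelude.Def_GaloisRep_Adic

/-!
# P-CHEB: application interfaces

`FrobeniusDensityStatement` ⟹ two Galois representations whose characteristic polynomials agree
at all Frobenius elements outside a finite set of primes have the same characteristic polynomial
everywhere (`CharpolyPropagationStatement` for `GaloisRepAdic`, `ResidualPropagationStatement` for
`ResidualGaloisRep`).
-/

set_option autoImplicit false

namespace Fermat.Agent.H62.Cheb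

/-- **CHEB-APP1**: propagation of characteristic polynomials for adic representations over a
Noetherian local ring. -/
def CharpolyPropagationStatement : Prop :=
  ∀ (A : Type) [CommRing A] [IsLocalRing A] [IsNoetherianRing A] (ρ₁ ρ₂ : GaloisRepAdic A)
    (T : Finset ℕ),
    (∀ ℓ : ℕ, ℓ.Prime → ℓ ∉ T → ∀ P : ValuationSubring (AlgebraicClosure ℚ), P.LiesOverPrime ℓ →
      ∀ τ : AlgebraicClosure ℚ ≃ₐ[ℚ] AlgebraicClosure ℚ, P.IsFrobeniusAt τ ℓ →
        LinearMap.charpoly (ρ₁.ρ τ) = LinearMap.charpoly (ρ₂.ρ τ)) →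
    ∀ g : AlgebraicClosure ℚ ≃ₐ[ℚ] AlgebraicClosure ℚ,
      LinearMap.charpoly (ρ₁.ρ g) = LinearMap.charpoly (ρ₂.ρ g)

/-- **CHEB-APP2**: propagation of characteristic polynomials for residual representations. -/
def ResidualPropagationStatement : Prop :=
  ∀ (k : Type) [Field k] (ρ₁ ρ₂ : ResidualGaloisRep k) (T : Finset ℕ),
    (∀ ℓ : ℕ, ℓ.Prime → ℓ ∉ T → ∀ P : ValuationSubring (AlgebraicClosure ℚ), P.LiesOverPrime ℓ →
      ∀ τ : AlgebraicClosure ℚ ≃ₐ[ℚ] AlgebraicClosure ℚ, P.IsFrobeniusAt τ ℓ →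
        LinearMap.charpoly (ρ₁.ρ τ) = LinearMap.charpoly (ρ₂.ρ τ)) →
    ∀ g : AlgebraicClosure ℚ ≃ₐ[ℚ] AlgebraicClosure ℚ,
      LinearMap.charpoly (ρ₁.ρ g) = LinearMap.charpoly (ρ₂.ρ g)

end Fermat.Agent.H62.Cheb
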