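import Fermat.Agent.H62.Cheb.Interfaces

/-!
# P-CHEB / CHEB-D: Frobenius' theorem for number fields from its three inputs

`DegOneAsymptoticStatement → CountingStatement → GroupMoebiusStatement → FrobeniusNFStatement`.
-/

set_option autoImplicit false

open NumberField Ideal IsDedekindDomain Filter Topology
open scoped Pointwise Classical

namespace Fermat.Agent.H62.Cheb

/-! ### Arithmetic and group-theoretic preliminaries -/

theorem sum_moebius_mul_div_eq_totient (c : ℕ) (hc : 0 < c) :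
    ∑ d ∈ c.divisors, (ArithmeticFunction.moebius d : ℤ) * ((c / d : ℕ) : ℤ) =
      (Nat.totient c : ℤ) := by
  have h := (ArithmeticFunction.sum_eq_iff_sum_mul_moebius_eq (R := ℤ)
    (f := fun n => (Nat.totient n : ℤ)) (g := fun n => (n : ℤ))).mp
    (fun n _ => by exact_mod_cast Nat.sum_totient n) c hc
  rw [← h]
  exact (Nat.sum_divisorsAntidiagonal
    (fun i j => (ArithmeticFunction.moebius i : ℤ) * (j : ℤ))).symm

theorem card_zpowers_pow_of_dvd {G : Type*} [Group G] [Finite G] (σ : G) {d : ℕ}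
    (hd : d ∣ orderOf σ) : Nat.card (Subgroup.zpowers (σ ^ d)) = orderOf σ / d := by
  have hc : 0 < orderOf σ := orderOf_pos σ
  have hd0 : d ≠ 0 := fun h => by rw [h, zero_dvd_iff] at hd; omega
  rw [Nat.card_zpowers, orderOf_pow' σ hd0, Nat.gcd_eq_right hd]

/-! ### Pairs `(𝔓, g)` -/

section pairs

variable (K : Type) [Field K] [NumberField K]

/-- all pairs `(𝔓, g)` with `p ∈ 𝔓` and `g ∈ Z(𝔓)` -/
def pairSet (p : ℕ) : Set (HeightOneSpectrum (𝓞 K) × (K ≃ₐ[ℚ] K)) :=
  {x | ((p : ℕ) : 𝓞 K) ∈ x.1.asIdeal ∧ x.2 ∈ MulAction.stabilizer (K ≃ₐ[ℚ] K) x.1.asIdeal}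

theorem finite_pairSet {p : ℕ} (hp : p ≠ 0) : (pairSet K p).Finite := by
  have hne : Ideal.span {((p : ℕ) : 𝓞 K)} ≠ 0 := by
    rw [Ne, Ideal.zero_eq_bot, Ideal.span_singleton_eq_bot]
    exact_mod_cast hp
  have h1 : {v : HeightOneSpectrum (𝓞 K) | ((p : ℕ) : 𝓞 K) ∈ v.asIdeal}.Finite :=
    (Ideal.finite_factors hne).subset fun v hv => Ideal.dvd_span_singleton.mpr hv
  exact (h1.prod (Set.finite_univ (α := K ≃ₐ[ℚ] K))).subset fun x hx => ⟨hx.1, Set.mem_univ _⟩

theorem pairCount_eq {p : ℕ} (hp : p ≠ 0) (D : Subgroup (K ≃ₐ[ℚ] K)) :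
    pairCount K D p = ((finite_pairSet K hp).toFinset.filter
      (fun x => MulAction.stabilizer (K ≃ₐ[ℚ] K) x.1.asIdeal ≤ D)).card := by
  rw [pairCount]
  refine Nat.subtype_card _ fun x => ?_
  simp only [Finset.mem_filter, Set.Finite.mem_toFinset, pairSet, Set.mem_ofPred_eq, and_assoc]

theorem exactPairCount_eq {p : ℕ} (hp : p ≠ 0) (D : Subgroup (K ≃ₐ[ℚ] K)) :
    exactPairCount K D p = ((finite_pairSet K hp).toFinset.filter
      (fun x => MulAction.stabilizer (K ≃ₐ[ℚ] K) x.1.asIdeal = D)).card := by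
  rw [exactPairCount]
  refine Nat.subtype_card _ fun x => ?_
  simp only [Finset.mem_filter, Set.Finite.mem_toFinset, pairSet, Set.mem_ofPred_eq, and_assoc]

theorem sum_moebius_pairCount (hC : GroupMoebiusStatement) (σ : K ≃ₐ[ℚ] K) {p : ℕ} (hp : p ≠ 0) :
    ∑ d ∈ (orderOf σ).divisors, (ArithmeticFunction.moebius d : ℤ) *
        (pairCount K (Subgroup.zpowers (σ ^ d)) p : ℤ) =
      (exactPairCount K (Subgroup.zpowers σ) p : ℤ) := by
  simp only [pairCount_eq K hp, exactPairCount_eq K hp, Finset.card_filter, Nat.cast_sum,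
    Finset.mul_sum]
  rw [Finset.sum_comm]
  refine Finset.sum_congr rfl fun x _ => ?_
  have h := hC (K ≃ₐ[ℚ] K) σ (MulAction.stabilizer (K ≃ₐ[ℚ] K) x.1.asIdeal)
  push_cast
  simpa using h

theorem exactPairCount_eq_zero {p : ℕ} (hp : p ≠ 0) (D : Subgroup (K ≃ₐ[ℚ] K))
    (h : ∀ v : HeightOneSpectrum (𝓞 K), ((p : ℕ) : 𝓞 K) ∈ v.asIdeal →
      MulAction.stabilizer (K ≃ₐ[ℚ] K) v.asIdeal ≠ D) :
    exactPairCount K D p = 0 := by
  rw [exactPairCount_eq K hp, Finset.card_eq_zero, Finset.filter_eq_empty_iff]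
  intro x hx
  rw [Set.Finite.mem_toFinset] at hx
  exact h x.1 hx.1

end pairs


/-! ### The analytic assembly -/

/-- the set of rational primes dividing a nonzero integer is finite -/
theorem finite_primes_dvd {n : ℤ} (hn : n ≠ 0) : {p : Nat.Primes | ((p : ℕ) : ℤ) ∣ n}.Finite := by
  have h1 : {m : ℕ | m ∣ n.natAbs}.Finite :=
    (Nat.divisors n.natAbs).finite_toSet.subset fun m hm => by
      simp only [Finset.mem_coe, Nat.mem_divisors]
      exact ⟨hm, Int.natAbs_ne_zero.mpr hn⟩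
  refine Set.Finite.of_finite_image (f := fun p : Nat.Primes => (p : ℕ)) (h1.subset ?_)
    (fun p _ q _ h => Subtype.ext h)
  rintro _ ⟨p, hp, rfl⟩
  exact Int.natCast_dvd.mp hp

theorem log_inv_sub_one_unbounded (δ : ℝ) (hδ : 0 < δ) (X : ℝ) :
    ∃ s : ℝ, 1 < s ∧ s < 1 + δ ∧ X < Real.log (1 / (s - 1)) := by
  set t := min (δ / 2) (Real.exp (-(X + 1))) with ht
  have ht0 : 0 < t := lt_min (by linarith) (Real.exp_pos _)
  refine ⟨1 + t, by linarith, ?_, ?_⟩
  · have : t ≤ δ / 2 := min_le_left _ _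
    linarith
  · have h1 : t ≤ Real.exp (-(X + 1)) := min_le_right _ _
    have h2 : Real.log t ≤ -(X + 1) := by
      calc Real.log t ≤ Real.log (Real.exp (-(X + 1))) := Real.log_le_log ht0 h1
        _ = -(X + 1) := Real.log_exp _
    rw [add_sub_cancel_left, one_div, Real.log_inv]
    linarith

/-- **CHEB-D**: Frobenius' theorem for number fields from its three inputs. -/
theorem frobeniusNF_of_parts (hA : DegOneAsymptoticStatement) (hB : CountingStatement)
    (hC : GroupMoebiusStatement) : FrobeniusNFStatement := by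
  intro K _ _ _ σ T
  by_contra hcon
  push Not at hcon
  set c := orderOf σ with hcdef
  have hc : 0 < c := orderOf_pos σ
  -- the data for the fixed fields
  have hAd := fun d : ℕ => hA (IntermediateField.fixedField (Subgroup.zpowers (σ ^ d)))
  choose hsum B δ hδ hbound using hAd
  -- weights
  set w : ℕ → ℤ := fun d => (ArithmeticFunction.moebius d : ℤ) * ((c / d : ℕ) : ℤ) with hw
  have hwsum : ∑ d ∈ c.divisors, w d = (Nat.totient c : ℤ) :=
    sum_moebius_mul_div_eq_totient c hc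
  have hφ : (1 : ℝ) ≤ (Nat.totient c : ℝ) := by
    exact_mod_cast Nat.totient_pos.mpr hc
  -- the coefficients `a p`
  set a : ℕ → ℤ := fun p => ∑ d ∈ c.divisors, w d *
    (primeCount (IntermediateField.fixedField (Subgroup.zpowers (σ ^ d))) p : ℤ) with ha
  have ha0 : ∀ p : ℕ, p.Prime → p ∉ T → ¬ ((p : ℤ) ∣ NumberField.discr K) → a p = 0 := by
    intro p hp hpT hpd
    have h1 : a p = ∑ d ∈ c.divisors, (ArithmeticFunction.moebius d : ℤ) *
        (pairCount K (Subgroup.zpowers (σ ^ d)) p : ℤ) := by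
      refine Finset.sum_congr rfl fun d hd => ?_
      have hdc : d ∣ c := Nat.dvd_of_mem_divisors hd
      have := hB K (Subgroup.zpowers (σ ^ d)) p hp hpd
      rw [← this, card_zpowers_pow_of_dvd σ hdc]
      simp only [hw]
      push_cast
      ring
    rw [h1, sum_moebius_pairCount K hC σ hp.ne_zero,
      exactPairCount_eq_zero K hp.ne_zero _ (fun v hv => hcon p hp hpT hpd v hv)]
    rfl
  -- the finite bad set
  have hbad : {p : Nat.Primes | (p : ℕ) ∈ T ∨ ((p : ℕ) : ℤ) ∣ NumberField.discr K}.Finite := by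
    refine Set.Finite.union ?_ (finite_primes_dvd (NumberField.discr_ne_zero K))
    refine Set.Finite.of_finite_image (f := fun p : Nat.Primes => (p : ℕ))
      (T.finite_toSet.subset ?_) (fun p _ q _ h => Subtype.ext h)
    rintro _ ⟨p, hp, rfl⟩
    exact hp
  set R := hbad.toFinset with hR
  have haR : ∀ p : Nat.Primes, p ∉ R → a p = 0 := by
    intro p hp
    rw [hR, Set.Finite.mem_toFinset, Set.mem_ofPred_eq, not_or] at hp
    exact ha0 p p.2 hp.1 hp.2
  -- constants
  set M : ℝ := ∑ p ∈ R, |(a p : ℝ)| with hM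
  set E : ℝ := ∑ d ∈ c.divisors, |(w d : ℝ)| * B d with hE
  have hdiv : c.divisors.Nonempty := ⟨1, Nat.mem_divisors.mpr ⟨one_dvd _, hc.ne'⟩⟩
  set δ₀ : ℝ := c.divisors.inf' hdiv δ with hδ₀
  have hδ₀pos : 0 < δ₀ := by
    rw [hδ₀, Finset.lt_inf'_iff]
    exact fun d _ => hδ d
  obtain ⟨s, hs1, hs2, hsX⟩ := log_inv_sub_one_unbounded δ₀ hδ₀pos (M + E)
  -- the linear combination of degree-one sums
  have hkey : ∑ d ∈ c.divisors, (w d : ℝ) *
      degOneSum (IntermediateField.fixedField (Subgroup.zpowers (σ ^ d))) s =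
      ∑ p ∈ R, (a p : ℝ) * ((p : ℕ) : ℝ) ^ (-s) := by
    have h1 : ∀ d ∈ c.divisors, Summable (fun p : Nat.Primes => (w d : ℝ) *
        ((primeCount (IntermediateField.fixedField (Subgroup.zpowers (σ ^ d))) p : ℝ) *
          ((p : ℕ) : ℝ) ^ (-s))) := fun d _ => (hsum d s hs1).mul_left _
    have h2 : ∑ d ∈ c.divisors, (w d : ℝ) *
        degOneSum (IntermediateField.fixedField (Subgroup.zpowers (σ ^ d))) s =
        ∑' p : Nat.Primes, ∑ d ∈ c.divisors, (w d : ℝ) *
          ((primeCount (IntermediateField.fixedField (Subgroup.zpowers (σ ^ d))) p : ℝ) *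
            ((p : ℕ) : ℝ) ^ (-s)) := by
      rw [Summable.tsum_finsetSum h1]
      refine Finset.sum_congr rfl fun d _ => ?_
      rw [degOneSum, tsum_mul_left]
    rw [h2]
    have h3 : ∀ p : Nat.Primes, ∑ d ∈ c.divisors, (w d : ℝ) *
          ((primeCount (IntermediateField.fixedField (Subgroup.zpowers (σ ^ d))) p : ℝ) *
            ((p : ℕ) : ℝ) ^ (-s)) = (a p : ℝ) * ((p : ℕ) : ℝ) ^ (-s) := by
      intro p
      simp only [ha]
      push_cast
      rw [Finset.sum_mul]
      refine Finset.sum_congr rfl fun d _ => ?_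
      ring
    simp only [h3]
    refine tsum_eq_sum fun p hp => ?_
    rw [haR p hp]
    simp
  -- upper bound
  have hupper : |∑ p ∈ R, (a p : ℝ) * ((p : ℕ) : ℝ) ^ (-s)| ≤ M := by
    refine (Finset.abs_sum_le_sum_abs _ _).trans (Finset.sum_le_sum fun p _ => ?_)
    rw [abs_mul]
    have hp1 : (1 : ℝ) ≤ ((p : ℕ) : ℝ) := by exact_mod_cast p.2.one_lt.le
    have h1 : ((p : ℕ) : ℝ) ^ (-s) ≤ 1 :=
      Real.rpow_le_one_of_one_le_of_nonpos hp1 (by linarith)
    have h0 : 0 ≤ ((p : ℕ) : ℝ) ^ (-s) := Real.rpow_nonneg (by linarith) _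
    rw [abs_of_nonneg h0]
    exact mul_le_of_le_one_right (abs_nonneg _) h1
  -- lower bound
  have hlower : (Nat.totient c : ℝ) * Real.log (1 / (s - 1)) - E ≤
      ∑ d ∈ c.divisors, (w d : ℝ) *
        degOneSum (IntermediateField.fixedField (Subgroup.zpowers (σ ^ d))) s := by
    have hwsumR : ∑ d ∈ c.divisors, (w d : ℝ) = (Nat.totient c : ℝ) := by
      exact_mod_cast hwsum
    rw [← hwsumR, Finset.sum_mul, hE, ← Finset.sum_sub_distrib]
    refine Finset.sum_le_sum fun d hd => ?_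
    have hs2' : s < 1 + δ d := lt_of_lt_of_le hs2 (by
      have : δ₀ ≤ δ d := Finset.inf'_le δ hd
      linarith)
    have hb := hbound d s hs1 hs2'
    have hb' : |(w d : ℝ) * (degOneSum (IntermediateField.fixedField
        (Subgroup.zpowers (σ ^ d))) s - Real.log (1 / (s - 1)))| ≤ |(w d : ℝ)| * B d := by
      rw [abs_mul]
      exact mul_le_mul_of_nonneg_left hb (abs_nonneg _)
    have := neg_le_of_abs_le hb'
    linarith
  have hLpos : 0 ≤ Real.log (1 / (s - 1)) := by
    have hM0 : 0 ≤ M := Finset.sum_nonneg fun _ _ => abs_nonneg _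
    have hE0 : 0 ≤ E := by
      refine Finset.sum_nonneg fun d hd => mul_nonneg (abs_nonneg _) ?_
      have hs2' : 1 + δ d / 2 < 1 + δ d := by linarith [hδ d]
      exact (abs_nonneg _).trans (hbound d (1 + δ d / 2) (by linarith [hδ d]) hs2')
    linarith
  have h1 : Real.log (1 / (s - 1)) ≤ (Nat.totient c : ℝ) * Real.log (1 / (s - 1)) :=
    le_mul_of_one_le_left hLpos hφ
  rw [hkey] at hlower
  have := le_abs_self (∑ p ∈ R, (a p : ℝ) * ((p : ℕ) : ℝ) ^ (-s))
  linarith

end Fermat.Agent.H62.Cheb
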