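/-
helper62, P-CHEB Phase 1: final assembly.

Unconditional versions of the Phase-1 statements of `Fermat.Agent.H62.Cheb.Interfaces` and
`Fermat.Agent.H62.Cheb.AppInterfaces`:

* `frobeniusNF` : Frobenius' density theorem, number-field form (every cyclic subgroup of a
  finite Galois group over `ℚ` is the decomposition group of an unramified prime, outside any
  finite set of rational primes);
* `frobeniusDensity` : the same in the language of the prelude (`ℚ̄`, `Field.absoluteGaloisGroup`);
* `charpolyPropagation`, `residualPropagation` : two 2-dimensional Galois representations whose
  characteristic polynomials agree on Frobenius elements agree everywhere.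

Parts: CHEB-A (H62.Cheb.DegOne), CHEB-B (H39.ChebCounting), CHEB-C (H87.Cheb.GroupMoebius),
CHEB-D (H62.Cheb.GlueNF), CHEB-E (H73.ChebBridge), CHEB-F (H47.Cheb.GlueF), CHEB-APP (H48.ChebApp).
-/
import Fermat.Agent.H62.Cheb.Interfaces
import Fermat.Agent.H62.Cheb.AppInterfaces
import Fermat.Agent.H62.Cheb.DegOne
import Fermat.Agent.H62.Cheb.GlueNF
import Fermat.Agent.H39.ChebCounting
import Fermat.Agent.H87.Cheb.GroupMoebius
import Fermat.Agent.H73.ChebBridge
import Fermat.Agent.H47.Cheb.GlueF
import Fermat.Agent.H48.ChebApp

set_option autoImplicit false

namespace Fermat.Agent.H62.Cheb

/-- **Frobenius' density theorem**, number-field form (unconditional). -/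
theorem frobeniusNF : FrobeniusNFStatement :=
  frobeniusNF_of_parts degOneAsymptotic Fermat.Agent.H39.counting
    Fermat.Agent.H87.Cheb.groupMoebius

/-- **Frobenius' density theorem**, prelude form (unconditional). -/
theorem frobeniusDensity : FrobeniusDensityStatement :=
  Fermat.Agent.H47.frobeniusDensity_of_parts frobeniusNF Fermat.Agent.H73.bridge

/-- Characteristic polynomials of 2-dimensional adic Galois representations propagate from
Frobenius elements to all elements (unconditional). -/
theorem charpolyPropagation : CharpolyPropagationStatement :=
  Fermat.Agent.H48.charpolyPropagation frobeniusDensity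

/-- Characteristic polynomials of 2-dimensional residual Galois representations propagate from
Frobenius elements to all elements (unconditional). -/
theorem residualPropagation : ResidualPropagationStatement :=
  Fermat.Agent.H48.residualPropagation frobeniusDensity

end Fermat.Agent.H62.Cheb
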